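import Mathlib

/-!
# Project FF, block FF-H (1): evaluation of tensors of function algebras

For `R`-algebras `P`, `Q` mapping to function algebras `X → Ω`, `Y → Ω` we define the evaluation
`P ⊗[R] Q →ₐ[R] (X × Y → Ω)` and show that it is injective as soon as `P`, `Q` have finite
`R`-bases whose images are `Ω`-linearly independent; the images of the tensor basis are then
again `Ω`-linearly independent (so the criterion can be iterated).
-/

open TensorProduct Module

namespace Fermat.Agent.S19lib.H

variable {R Ω : Type*} [CommRing R] [Field Ω] [Algebra R Ω]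

/-- Precomposition with a function, as a homomorphism of function algebras. -/
def precomp {X Y : Type*} (g : Y → X) : (X → Ω) →ₐ[R] (Y → Ω) :=
  AlgHom.pi (fun y => Pi.evalAlgHom R (fun _ => Ω) (g y))

@[simp] theorem precomp_apply {X Y : Type*} (g : Y → X) (φ : X → Ω) (y : Y) :
    precomp (R := R) g φ y = φ (g y) := rfl

section Pair

variable {P Q X Y : Type*} [CommRing P] [CommRing Q] [Algebra R P] [Algebra R Q]

/-- Evaluation of a tensor of two "function-valued" algebras on pairs of points. -/
noncomputable def evPair (f : P →ₐ[R] (X → Ω)) (g : Q →ₐ[R] (Y → Ω)) :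
    P ⊗[R] Q →ₐ[R] (X × Y → Ω) :=
  Algebra.TensorProduct.lift ((precomp Prod.fst).comp f) ((precomp Prod.snd).comp g)
    (fun _ _ => Commute.all _ _)

@[simp] theorem evPair_tmul (f : P →ₐ[R] (X → Ω)) (g : Q →ₐ[R] (Y → Ω)) (a : P) (b : Q)
    (z : X × Y) : evPair f g (a ⊗ₜ[R] b) z = f a z.1 * g b z.2 := by
  simp [evPair]

/-- Products of two linearly independent families of functions are linearly independent. -/
theorem linearIndependent_mul_prod {ι κ : Type*} [Fintype ι] [Fintype κ]
    (u : ι → X → Ω) (v : κ → Y → Ω)
    (hu : LinearIndependent Ω u) (hv : LinearIndependent Ω v) :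
    LinearIndependent Ω (fun p : ι × κ => fun z : X × Y => u p.1 z.1 * v p.2 z.2) := by
  rw [Fintype.linearIndependent_iff] at hu hv ⊢
  intro c hc p
  have h1 : ∀ (y : Y) (i : ι), ∑ j, c (i, j) * v j y = 0 := by
    intro y
    apply hu (fun i => ∑ j, c (i, j) * v j y)
    funext x
    have := congrFun hc (x, y)
    simp only [Finset.sum_apply, Pi.smul_apply, smul_eq_mul, Pi.zero_apply,
      Fintype.sum_prod_type] at this ⊢
    rw [← this]
    refine Finset.sum_congr rfl fun i _ => ?_
    rw [Finset.sum_mul]
    refine Finset.sum_congr rfl fun j _ => ?_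
    ring
  have h2 := hv (fun j => c (p.1, j)) (by
    funext y
    simpa [Finset.sum_apply] using h1 y p.1) p.2
  exact h2

variable {ι κ : Type*} [Fintype ι] [Fintype κ]

omit [Fintype ι] [Fintype κ] in
theorem evPair_basis (f : P →ₐ[R] (X → Ω)) (g : Q →ₐ[R] (Y → Ω))
    (b : Basis ι R P) (c : Basis κ R Q) (p : ι × κ) :
    evPair f g (b.tensorProduct c p) = fun z : X × Y => f (b p.1) z.1 * g (c p.2) z.2 := by
  obtain ⟨i, j⟩ := p
  funext z
  rw [Basis.tensorProduct_apply, evPair_tmul]

/-- The images of the tensor basis are again `Ω`-linearly independent. -/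
theorem evPair_indep (f : P →ₐ[R] (X → Ω)) (g : Q →ₐ[R] (Y → Ω))
    (b : Basis ι R P) (c : Basis κ R Q)
    (hb : LinearIndependent Ω (fun i => f (b i))) (hc : LinearIndependent Ω (fun j => g (c j))) :
    LinearIndependent Ω (fun p : ι × κ => evPair f g (b.tensorProduct c p)) := by
  have := linearIndependent_mul_prod (fun i => f (b i)) (fun j => g (c j)) hb hc
  convert this using 2 with p
  exact evPair_basis f g b c p

omit [Fintype ι] in
/-- An algebra hom to functions sending a basis to an `Ω`-independent family is injective. -/
theorem injective_of_indep (hR : Function.Injective (algebraMap R Ω))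
    (f : P →ₐ[R] (X → Ω)) (b : Basis ι R P)
    (hb : LinearIndependent Ω (fun i => f (b i))) : Function.Injective f := by
  have hli : LinearIndependent R (f.toLinearMap ∘ b) := by
    refine LinearIndependent.restrict_scalars (R := R) (K := Ω) ?_ hb
    intro r s hrs
    apply hR
    simpa [Algebra.smul_def] using hrs
  exact LinearMap.injective_of_linearIndependent (f := f.toLinearMap) b.span_eq hli

theorem evPair_injective (hR : Function.Injective (algebraMap R Ω))
    (f : P →ₐ[R] (X → Ω)) (g : Q →ₐ[R] (Y → Ω))
    (b : Basis ι R P) (c : Basis κ R Q)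
    (hb : LinearIndependent Ω (fun i => f (b i))) (hc : LinearIndependent Ω (fun j => g (c j))) :
    Function.Injective (evPair f g) :=
  injective_of_indep hR (evPair f g) (b.tensorProduct c) (evPair_indep f g b c hb hc)

/-- Both evaluation maps attached to one algebra hom with an `Ω`-independent basis are
injective. -/
theorem evPair_injective₂₃ (hR : Function.Injective (algebraMap R Ω))
    (f : P →ₐ[R] (X → Ω)) (b : Basis ι R P)
    (hb : LinearIndependent Ω (fun i => f (b i))) :
    Function.Injective (evPair f f) ∧
      Function.Injective (evPair (P := P) (Q := P ⊗[R] P) (X := X) (Y := X × X) f (evPair f f)) :=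
  ⟨evPair_injective hR f f b b hb hb,
    evPair_injective hR f (evPair f f) b (b.tensorProduct b) hb (evPair_indep f f b b hb hb)⟩

end Pair

end Fermat.Agent.S19lib.H
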