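import Fermat.Agent.S19lib.H.Integral

/-!
# Project FF, block FF-H (7): finite generation of orders of integral-valued functions

`R` a noetherian integrally closed domain, `K = Frac R`, `Ω / K` Galois, `L` a finite subextension.
A submodule of `Γ → Ω` (`Γ` finite) all of whose elements take values in `L` which are integral
over `R` is finitely generated: it embeds in `Γ → 𝒪_L`.
-/

namespace Fermat.Agent.S19lib.H

set_option linter.unusedSectionVars false
set_option linter.style.haveILetI false

variable {R K Ω : Type*} [CommRing R] [IsDomain R] [Field K] [Field Ω] [Algebra R K] [Algebra K Ω]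
  [Algebra R Ω] [IsScalarTower R K Ω] [IsFractionRing R K] [IsGalois K Ω]
  {Γ : Type*} [Finite Γ]

theorem fg_of_integral_values [IsNoetherianRing R] [IsIntegrallyClosed R]
    (L : IntermediateField K Ω) [FiniteDimensional K L]
    (M : Submodule R (Γ → Ω)) (hL : ∀ φ ∈ M, ∀ x, φ x ∈ L)
    (hint : ∀ φ ∈ M, ∀ x, IsIntegral R (φ x)) : M.FG := by
  haveI : Algebra.IsSeparable K L := Algebra.isSeparable_tower_bot_of_isSeparable K L Ω
  haveI hfinO : Module.Finite R (integralClosure R L) :=
    IsIntegralClosure.finite R K L (integralClosure R L)
  haveI : IsScalarTower R L Ω := IsScalarTower.of_algebraMap_eq (fun r => rfl)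
  have hint' : ∀ (φ : Γ → Ω) (hφ : φ ∈ M) (x : Γ), IsIntegral R (⟨φ x, hL φ hφ x⟩ : L) := by
    intro φ hφ x
    have h := hint φ hφ x
    exact (isIntegral_algebraMap_iff (algebraMap L Ω).injective).mp h
  let f : M →ₗ[R] (Γ → integralClosure R L) :=
    { toFun := fun φ x => ⟨⟨(φ : Γ → Ω) x, hL φ φ.2 x⟩, hint' φ φ.2 x⟩
      map_add' := fun a b => by
        funext x
        apply Subtype.ext
        apply Subtype.ext
        rfl
      map_smul' := fun r a => by
        funext x
        apply Subtype.ext
        apply Subtype.ext
        rfl }
  have hf : Function.Injective f := by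
    intro a b hab
    apply Subtype.ext
    funext x
    have h1 := congrFun hab x
    have h2 := congrArg (fun z : integralClosure R L => ((z : L) : Ω)) h1
    exact h2
  haveI : Module.Finite R M := Module.Finite.of_injective f hf
  exact Module.Finite.iff_fg.mp inferInstance

end Fermat.Agent.S19lib.H
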