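import Fermat.Agent.S19lib.Iface
import Fermat.Agent.S19lib.Lead.GalBasis
import Fermat.Agent.S19lib.H.Finite
import Fermat.Agent.S28lib.AdjoinPoly

/-!
# Project FF, block FF-H (8): `PackStmt`

A Hopf order over `ℤ_(ℓ)` of equivariant functions on a finite continuous Galois module `Γ`
(in the sense of `S19lib.Iface`) is a finite flat cocommutative Hopf algebra over `ℤ_(ℓ)` whose
`ℚ̄`-points are `Γ`, additively and equivariantly.
-/

namespace Fermat.Agent.S19lib.H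

open Fermat.Agent.S19lib

set_option linter.unusedSectionVars false
set_option linter.style.haveILetI false

local notation "Qb" => AlgebraicClosure ℚ
local notation "GQ" => (AlgebraicClosure ℚ ≃ₐ[ℚ] AlgebraicClosure ℚ)

theorem isGalois_ratAlgClosure : IsGalois ℚ Qb := by
  haveI : Algebra.IsAlgebraic ℚ Qb := AlgebraicClosure.isAlgebraic ℚ
  haveI : IsAlgClosure ℚ Qb := ⟨inferInstance, inferInstance⟩
  haveI : Normal ℚ Qb := IsAlgClosure.normal ℚ Qb
  exact ⟨⟩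

instance ratLocalizedAt_isFractionRing (ℓ : ℕ) [Fact ℓ.Prime] :
    IsFractionRing ↥(GaloisRep.ratLocalizedAt ℓ) ℚ :=
  IsFractionRing.isFractionRing_of_isDomain_of_isLocalization
    (Ideal.span {((ℓ : ℕ) : ℤ)}).primeCompl ↥(GaloisRep.ratLocalizedAt ℓ) ℚ

/-- A rational number lying in a valuation ring of `ℚ̄` over `ℓ` has denominator prime to `ℓ`. -/
theorem rat_mem_ratLocalizedAt (ℓ : ℕ) [Fact ℓ.Prime] (A : ValuationSubring Qb)
    (hA : A.LiesOverPrime ℓ) (q : ℚ) (hq : algebraMap ℚ Qb q ∈ A) :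
    q ∈ GaloisRep.ratLocalizedAt ℓ := by
  have hℓ : ℓ.Prime := Fact.out
  change q.den.Coprime ℓ
  by_contra hcop
  have hdvd : ℓ ∣ q.den := by
    by_contra h
    exact hcop ((Nat.Prime.coprime_iff_not_dvd hℓ).mpr h).symm
  obtain ⟨m, hm⟩ := hdvd
  have hvℓ : A.valuation ((ℓ : ℕ) : Qb) < 1 := A.mem_nonunits_iff.mp hA
  have hnat : ∀ n : ℕ, A.valuation ((n : ℕ) : Qb) ≤ 1 := fun n =>
    (A.valuation_le_one_iff _).mpr (natCast_mem A n)
  have hint : ∀ n : ℤ, A.valuation ((n : ℤ) : Qb) ≤ 1 := fun n =>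
    (A.valuation_le_one_iff _).mpr (intCast_mem A n)
  have hvden : A.valuation ((q.den : ℕ) : Qb) < 1 := by
    rw [hm, Nat.cast_mul, map_mul]
    calc A.valuation ((ℓ : ℕ) : Qb) * A.valuation ((m : ℕ) : Qb)
        ≤ A.valuation ((ℓ : ℕ) : Qb) * 1 := mul_le_mul_right (hnat m) _
      _ < 1 := by rwa [mul_one]
  have hvq : A.valuation (algebraMap ℚ Qb q) ≤ 1 := (A.valuation_le_one_iff _).mpr hq
  have hnum : ((q.num : ℤ) : Qb) = algebraMap ℚ Qb q * ((q.den : ℕ) : Qb) := by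
    have h1 : (q : Qb) * ((q.den : ℕ) : Qb) = ((q.num : ℤ) : Qb) := by
      exact_mod_cast Rat.mul_den_eq_num q
    rw [eq_ratCast]
    exact h1.symm
  have hvnum : A.valuation ((q.num : ℤ) : Qb) < 1 := by
    rw [hnum, map_mul]
    calc A.valuation (algebraMap ℚ Qb q) * A.valuation ((q.den : ℕ) : Qb)
        ≤ 1 * A.valuation ((q.den : ℕ) : Qb) := mul_le_mul_left hvq _
      _ < 1 := by rwa [one_mul]
  have hcop2 : IsCoprime (q.num : ℤ) ((ℓ : ℕ) : ℤ) := by
    have h1 : Nat.Coprime q.num.natAbs q.den := q.reduced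
    have h2 : ¬ ℓ ∣ q.num.natAbs := by
      intro h
      have h3 : ℓ ∣ Nat.gcd q.num.natAbs q.den := Nat.dvd_gcd h ⟨m, hm⟩
      rw [h1] at h3
      exact hℓ.one_lt.ne' (Nat.dvd_one.mp h3)
    have h4 : Nat.Coprime q.num.natAbs ℓ := ((Nat.Prime.coprime_iff_not_dvd hℓ).mpr h2).symm
    rw [Int.isCoprime_iff_gcd_eq_one]
    simpa [Int.gcd] using h4
  obtain ⟨a, b, hab⟩ := hcop2
  have h1 : A.valuation (1 : Qb) < 1 := by
    have h2 : (1 : Qb) = ((a : ℤ) : Qb) * ((q.num : ℤ) : Qb) + ((b : ℤ) : Qb) * ((ℓ : ℕ) : Qb) := by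
      have := congrArg (fun z : ℤ => (z : Qb)) hab
      simp only [Int.cast_add, Int.cast_mul, Int.cast_natCast, Int.cast_one] at this
      exact this.symm
    rw [h2]
    refine lt_of_le_of_lt (Valuation.map_add _ _ _) (max_lt ?_ ?_)
    · rw [map_mul]
      calc A.valuation ((a : ℤ) : Qb) * A.valuation ((q.num : ℤ) : Qb)
          ≤ 1 * A.valuation ((q.num : ℤ) : Qb) := mul_le_mul_left (hint a) _
        _ < 1 := by rwa [one_mul]
    · rw [map_mul]
      calc A.valuation ((b : ℤ) : Qb) * A.valuation ((ℓ : ℕ) : Qb)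
          ≤ 1 * A.valuation ((ℓ : ℕ) : Qb) := mul_le_mul_left (hint b) _
        _ < 1 := by rwa [one_mul]
  rw [map_one] at h1
  exact lt_irrefl _ h1

section action

variable {J : Type} [AddCommGroup J] [DistribMulAction GQ J]

/-- The Galois action on a stable subgroup. -/
@[reducible] noncomputable def stableMulAction (Γ : AddSubgroup J) (hst : ∀ σ : GQ, ∀ x ∈ Γ, σ • x ∈ Γ) :
    MulAction GQ ↥Γ where
  smul σ x := ⟨σ • (x : J), hst σ x x.2⟩
  one_smul x := Subtype.ext (one_smul GQ (x : J))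
  mul_smul σ τ x := Subtype.ext (mul_smul σ τ (x : J))

end action

/-- **FF-H**: `PackStmt`. -/
theorem packStmt : PackStmt := by
  intro ℓ _ A hA J _ _ Γ hΓ O
  haveI : IsGalois ℚ Qb := isGalois_ratAlgClosure
  haveI : Finite ↥Γ := hΓ.finite
  letI act : MulAction GQ ↥Γ := stableMulAction Γ hΓ.stable
  have hsmul : ∀ (σ : GQ) (x : ↥Γ), ((σ • x : ↥Γ) : J) = σ • (x : J) := fun _ _ => rfl
  -- the order as a subalgebra over `ℤ_(ℓ)`
  have hRQ : ∀ r : ↥(GaloisRep.ratLocalizedAt ℓ),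
      algebraMap ↥(GaloisRep.ratLocalizedAt ℓ) Qb r ∈ RQ ℓ := by
    intro r
    exact ⟨(r : ℚ), r.2, rfl⟩
  have hconst : ∀ r : ↥(GaloisRep.ratLocalizedAt ℓ),
      (fun _ : ↥Γ => algebraMap ↥(GaloisRep.ratLocalizedAt ℓ) Qb r) ∈ O.H := by
    intro r
    have := O.smul_mem _ (hRQ r) _ O.one_mem
    simpa using this
  let H : Subalgebra ↥(GaloisRep.ratLocalizedAt ℓ) (↥Γ → Qb) :=
    { carrier := O.H
      mul_mem' := fun {a b} ha hb => O.mul_mem a ha b hb
      one_mem' := O.one_mem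
      add_mem' := fun {a b} ha hb => O.add_mem a ha b hb
      zero_mem' := by
        have h : (fun _ : ↥Γ => (0 : Qb)) ∈ O.H := by
          have := hconst 0
          simpa using this
        exact h
      algebraMap_mem' := fun r => hconst r }
  have hmemH : ∀ φ : ↥Γ → Qb, φ ∈ H ↔ φ ∈ O.H := fun _ => Iff.rfl
  have hequiv : ∀ φ ∈ H, IsEquivariant ℚ φ := by
    intro φ hφ σ x
    exact O.equivariant φ hφ σ (Subgroup.mem_top σ) x (σ • x) (hsmul σ x)
  -- separation of points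
  have hsep : ∀ x y : ↥Γ, x ≠ y → ∃ φ ∈ H, φ x ≠ φ y := by
    obtain ⟨i, hi_inj, hi_eq⟩ := Lead.exists_equivariant_injective Γ hΓ
    obtain ⟨n, hn⟩ := O.full i (fun σ _ x y hxy => hi_eq σ x y hxy)
    intro x y hxy
    refine ⟨_, hn, ?_⟩
    intro h
    have hℓ0 : (((ℓ : ℕ) : Qb) ^ n) ≠ 0 :=
      pow_ne_zero _ (Nat.cast_ne_zero.mpr (Fact.out : ℓ.Prime).ne_zero)
    exact hxy (hi_inj (mul_left_cancel₀ hℓ0 h))
  have h0 : ∀ σ : GQ, σ • (0 : ↥Γ) = 0 := by
    intro σ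
    apply Subtype.ext
    rw [hsmul]
    exact smul_zero (A := J) σ
  have hcomul : ∀ φ ∈ H, (fun z : ↥Γ × ↥Γ => φ (z.1 + z.2)) ∈ prodSpan H := by
    intro φ hφ
    obtain ⟨n, ψ, ψ', hψ, hψ', hsum⟩ := O.comul φ hφ
    have : (fun z : ↥Γ × ↥Γ => φ (z.1 + z.2)) =
        ∑ j : Fin n, (fun z : ↥Γ × ↥Γ => ψ j z.1 * ψ' j z.2) := by
      funext z
      rw [Finset.sum_apply]
      exact hsum z.1 z.2
    rw [this]
    refine Submodule.sum_mem _ fun j _ => Submodule.subset_span ?_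
    exact ⟨ψ j, hψ j, ψ' j, hψ' j, rfl⟩
  have hneg : ∀ φ ∈ H, (fun x => φ (-x)) ∈ H := fun φ hφ => O.antipode φ hφ
  -- finite generation
  have hint : ∀ φ ∈ H, ∀ x, IsIntegral ↥(GaloisRep.ratLocalizedAt ℓ) (φ x) := by
    intro φ hφ x
    cases nonempty_fintype ↥Γ
    refine isIntegral_value (K := ℚ) A.toSubring ?_ φ (hequiv φ hφ) (fun y => O.integral φ hφ y) x
    intro q hq
    exact ⟨⟨q, rat_mem_ratLocalizedAt ℓ A hA q hq⟩, rfl⟩
  choose E hEfin hEfix using fun x : ↥Γ => hΓ.open_stab x.1 x.2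
  haveI : ∀ x : ↥Γ, FiniteDimensional ℚ (E x) := hEfin
  let L : IntermediateField ℚ Qb := ⨆ x : ↥Γ, E x
  have hL : ∀ φ ∈ H, ∀ x, φ x ∈ L := by
    intro φ hφ x
    have h1 : φ x ∈ IntermediateField.fixedField (E x).fixingSubgroup := by
      rw [IntermediateField.mem_fixedField_iff]
      intro σ hσ
      have h2 : σ • (x : J) = x := by
        apply hEfix x σ
        intro e he
        exact (IntermediateField.mem_fixingSubgroup_iff (E x) σ).mp hσ e he
      have h3 : σ • x = x := Subtype.ext ((hsmul σ x).trans h2)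
      rw [← hequiv φ hφ σ x, h3]
    rw [InfiniteGalois.fixedField_fixingSubgroup] at h1
    exact (le_iSup (fun x : ↥Γ => E x) x) h1
  have hfg : (Subalgebra.toSubmodule H).FG :=
    fg_of_integral_values (K := ℚ) L (Subalgebra.toSubmodule H) hL hint
  obtain ⟨H', i1, i2, h1, h2, h3, e, he1, he2⟩ :=
    exists_hopfAlgebra_of_order (R := ↥(GaloisRep.ratLocalizedAt ℓ)) (K := ℚ) (Ω := Qb)
      H hfg hequiv hsep h0 hcomul hneg
  refine ⟨H', i1, i2, h1, h2, h3, e, he1, ?_⟩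
  intro σ f g hfg'
  have := he2 σ f g hfg'
  rw [this]
  rfl

end Fermat.Agent.S19lib.H
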