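import Fermat.Agent.S19lib.H.Eval

/-!
# Project FF, block FF-H (2): the Hopf algebra structure on an order of functions on a group

`Γ` is an additive commutative group, `H` an `R`-subalgebra of the function algebra `Γ → Ω`.
If the evaluation maps `H ⊗ H → (Γ × Γ → Ω)` and `H ⊗ (H ⊗ H) → (Γ × (Γ × Γ) → Ω)` are injective
and `H` is stable under the translation coproduct, the counit `φ ↦ φ 0` (with values in `R`) and
the inversion `φ ↦ φ ∘ neg`, then `H` is a commutative and cocommutative Hopf algebra over `R`.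
-/

open TensorProduct Module Coalgebra Bialgebra

namespace Fermat.Agent.S19lib.H

set_option linter.unusedSectionVars false
set_option linter.style.haveILetI false

variable {R Ω : Type*} [CommRing R] [Field Ω] [Algebra R Ω] {Γ : Type*} [AddCommGroup Γ]

/-- `H ⊗ H → (Γ × Γ → Ω)`. -/
noncomputable abbrev ev₂ (H : Subalgebra R (Γ → Ω)) : ↥H ⊗[R] ↥H →ₐ[R] (Γ × Γ → Ω) :=
  evPair H.val H.val

/-- `H ⊗ (H ⊗ H) → (Γ × (Γ × Γ) → Ω)`. -/
noncomputable abbrev ev₃ (H : Subalgebra R (Γ → Ω)) :
    ↥H ⊗[R] (↥H ⊗[R] ↥H) →ₐ[R] (Γ × (Γ × Γ) → Ω) :=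
  evPair (P := ↥H) (Q := ↥H ⊗[R] ↥H) (X := Γ) (Y := Γ × Γ) H.val (ev₂ H)

/-- The translation coproduct on functions. -/
def transl : (Γ → Ω) →ₐ[R] (Γ × Γ → Ω) := precomp (fun z : Γ × Γ => z.1 + z.2)

@[simp] theorem transl_apply (φ : Γ → Ω) (z : Γ × Γ) : transl (R := R) φ z = φ (z.1 + z.2) := rfl

/-- The hypotheses making a subalgebra of functions on `Γ` a Hopf algebra. -/
structure Core (H : Subalgebra R (Γ → Ω)) : Prop where
  injR : Function.Injective (algebraMap R Ω)
  inj₂ : Function.Injective (ev₂ H)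
  inj₃ : Function.Injective (ev₃ H)
  comul_mem : ∀ φ ∈ H, transl (R := R) φ ∈ (ev₂ H).range
  counit_mem : ∀ φ ∈ H, φ 0 ∈ (Algebra.ofId R Ω).range
  neg_mem : ∀ φ ∈ H, (fun x => φ (-x)) ∈ H

namespace Core

variable {H : Subalgebra R (Γ → Ω)}

/-- The comultiplication. -/
noncomputable def comulHom (hH : Core H) : ↥H →ₐ[R] ↥H ⊗[R] ↥H :=
  ((AlgEquiv.ofInjective (ev₂ H) hH.inj₂).symm : _ →ₐ[R] _).comp
    (((transl (R := R)).comp H.val).codRestrict (ev₂ H).range fun φ => hH.comul_mem φ φ.2)

theorem ev₂_comulHom (hH : Core H) (φ : ↥H) (z : Γ × Γ) :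
    ev₂ H (hH.comulHom φ) z = (φ : Γ → Ω) (z.1 + z.2) := by
  have h := (AlgEquiv.ofInjective (ev₂ H) hH.inj₂).apply_symm_apply
    ((((transl (R := R)).comp H.val).codRestrict (ev₂ H).range
      fun φ => hH.comul_mem φ φ.2) φ)
  have h2 := congrArg Subtype.val h
  rw [AlgEquiv.ofInjective_apply] at h2
  have h3 : ev₂ H (hH.comulHom φ) = transl (R := R) (φ : Γ → Ω) := h2
  rw [h3]
  rfl

/-- The counit. -/
noncomputable def counitHom (hH : Core H) : ↥H →ₐ[R] R :=
  ((AlgEquiv.ofInjective (Algebra.ofId R Ω) hH.injR).symm : _ →ₐ[R] _).comp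
    (((Pi.evalAlgHom R (fun _ : Γ => Ω) 0).comp H.val).codRestrict (Algebra.ofId R Ω).range
      fun φ => hH.counit_mem φ φ.2)

theorem algebraMap_counitHom (hH : Core H) (φ : ↥H) :
    algebraMap R Ω (hH.counitHom φ) = (φ : Γ → Ω) 0 := by
  have h := (AlgEquiv.ofInjective (Algebra.ofId R Ω) hH.injR).apply_symm_apply
    ((((Pi.evalAlgHom R (fun _ : Γ => Ω) 0).comp H.val).codRestrict (Algebra.ofId R Ω).range
      fun φ => hH.counit_mem φ φ.2) φ)
  have h2 := congrArg Subtype.val h
  rw [AlgEquiv.ofInjective_apply] at h2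
  exact h2

/-! ### Evaluation formulas -/

theorem ev₃_tmul (H : Subalgebra R (Γ → Ω)) (a : ↥H) (s : ↥H ⊗[R] ↥H) (z : Γ × (Γ × Γ)) :
    ev₃ H (a ⊗ₜ[R] s) z = (a : Γ → Ω) z.1 * ev₂ H s z.2 := by
  simp [ev₃]

set_option synthInstance.maxHeartbeats 200000 in
theorem ev₃_assoc_tmul (H : Subalgebra R (Γ → Ω)) (s : ↥H ⊗[R] ↥H) (c : ↥H) (x y z : Γ) :
    ev₃ H (Algebra.TensorProduct.assoc R R R ↥H ↥H ↥H (s ⊗ₜ[R] c)) (x, (y, z)) =
      ev₂ H s (x, y) * (c : Γ → Ω) z := by
  induction s using TensorProduct.induction_on with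
  | zero => simp
  | tmul u v =>
    simp only [Algebra.TensorProduct.assoc_tmul, evPair_tmul, Subalgebra.coe_val]
    ring
  | add s t hs ht =>
    simp only [TensorProduct.add_tmul, map_add, Pi.add_apply, hs, ht, add_mul]

theorem ev₃_assoc_map_comulHom (hH : Core H) (t : ↥H ⊗[R] ↥H) (x y z : Γ) :
    ev₃ H (Algebra.TensorProduct.assoc R R R ↥H ↥H ↥H
      (Algebra.TensorProduct.map hH.comulHom (AlgHom.id R ↥H) t)) (x, (y, z)) =
      ev₂ H t (x + y, z) := by
  induction t using TensorProduct.induction_on with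
  | zero => simp
  | tmul a b =>
    simp only [Algebra.TensorProduct.map_tmul, AlgHom.coe_id, id_eq]
    rw [ev₃_assoc_tmul, ev₂_comulHom]
    simp
  | add s t hs ht => simp only [map_add, Pi.add_apply, hs, ht]

theorem ev₃_map_comulHom (hH : Core H) (t : ↥H ⊗[R] ↥H) (x y z : Γ) :
    ev₃ H (Algebra.TensorProduct.map (AlgHom.id R ↥H) hH.comulHom t) (x, (y, z)) =
      ev₂ H t (x, y + z) := by
  induction t using TensorProduct.induction_on with
  | zero => simp
  | tmul a b =>
    simp only [Algebra.TensorProduct.map_tmul, AlgHom.coe_id, id_eq]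
    rw [ev₃_tmul, ev₂_comulHom]
    simp
  | add s t hs ht => simp only [map_add, Pi.add_apply, hs, ht]

theorem lid_map_counitHom (hH : Core H) (t : ↥H ⊗[R] ↥H) (x : Γ) :
    ((Algebra.TensorProduct.lid R ↥H
      (Algebra.TensorProduct.map hH.counitHom (AlgHom.id R ↥H) t) : ↥H) : Γ → Ω) x =
      ev₂ H t (0, x) := by
  induction t using TensorProduct.induction_on with
  | zero => simp
  | tmul a b =>
    simp only [Algebra.TensorProduct.map_tmul, AlgHom.coe_id, id_eq,
      Algebra.TensorProduct.lid_tmul, evPair_tmul, Subalgebra.coe_val]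
    rw [← algebraMap_counitHom hH a]
    simp [Algebra.smul_def]
  | add s t hs ht =>
    simp only [map_add, Pi.add_apply, Subalgebra.coe_add, hs, ht]

theorem rid_map_counitHom (hH : Core H) (t : ↥H ⊗[R] ↥H) (x : Γ) :
    ((Algebra.TensorProduct.rid R R ↥H
      (Algebra.TensorProduct.map (AlgHom.id R ↥H) hH.counitHom t) : ↥H) : Γ → Ω) x =
      ev₂ H t (x, 0) := by
  induction t using TensorProduct.induction_on with
  | zero => simp
  | tmul a b =>
    simp only [Algebra.TensorProduct.map_tmul, AlgHom.coe_id, id_eq,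
      Algebra.TensorProduct.rid_tmul, evPair_tmul, Subalgebra.coe_val]
    rw [← algebraMap_counitHom hH b]
    simp [Algebra.smul_def, mul_comm]
  | add s t hs ht =>
    simp only [map_add, Pi.add_apply, Subalgebra.coe_add, hs, ht]

/-- The bialgebra structure. -/
@[reducible] noncomputable def bialgebra (hH : Core H) : Bialgebra R ↥H :=
  Bialgebra.ofAlgHom hH.comulHom hH.counitHom
    (by
      apply AlgHom.ext
      intro φ
      apply hH.inj₃
      funext ⟨x, y, z⟩
      have e1 := ev₃_assoc_map_comulHom hH (hH.comulHom φ) x y z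
      have e2 := ev₃_map_comulHom hH (hH.comulHom φ) x y z
      rw [ev₂_comulHom] at e1 e2
      refine e1.trans (Eq.trans ?_ e2.symm)
      simp [add_assoc])
    (by
      apply AlgHom.ext
      intro φ
      apply (Algebra.TensorProduct.lid R ↥H).injective
      apply Subtype.ext
      funext x
      rw [AlgHom.comp_apply, lid_map_counitHom, ev₂_comulHom]
      simp)
    (by
      apply AlgHom.ext
      intro φ
      apply (Algebra.TensorProduct.rid R R ↥H).injective
      apply Subtype.ext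
      funext x
      rw [AlgHom.comp_apply, rid_map_counitHom, ev₂_comulHom]
      simp)

theorem comul_eq (hH : Core H) (φ : ↥H) :
    letI := hH.bialgebra
    comul (R := R) φ = hH.comulHom φ := rfl

theorem counit_eq (hH : Core H) (φ : ↥H) :
    letI := hH.bialgebra
    counit (R := R) φ = hH.counitHom φ := rfl

/-- The antipode. -/
noncomputable def antipodeMap (hH : Core H) : ↥H →ₗ[R] ↥H where
  toFun φ := ⟨fun x => (φ : Γ → Ω) (-x), hH.neg_mem φ φ.2⟩
  map_add' a b := by
    apply Subtype.ext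
    funext x
    simp
  map_smul' r a := by
    apply Subtype.ext
    funext x
    simp

@[simp] theorem coe_antipodeMap (hH : Core H) (φ : ↥H) (x : Γ) :
    ((hH.antipodeMap φ : ↥H) : Γ → Ω) x = (φ : Γ → Ω) (-x) := rfl

theorem mul'_rTensor_antipodeMap (hH : Core H) (t : ↥H ⊗[R] ↥H) (x : Γ) :
    ((LinearMap.mul' R ↥H (hH.antipodeMap.rTensor ↥H t) : ↥H) : Γ → Ω) x = ev₂ H t (-x, x) := by
  induction t using TensorProduct.induction_on with
  | zero => simp
  | tmul a b => simp
  | add s t hs ht => simp only [map_add, Pi.add_apply, Subalgebra.coe_add, hs, ht]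

theorem mul'_lTensor_antipodeMap (hH : Core H) (t : ↥H ⊗[R] ↥H) (x : Γ) :
    ((LinearMap.mul' R ↥H (hH.antipodeMap.lTensor ↥H t) : ↥H) : Γ → Ω) x = ev₂ H t (x, -x) := by
  induction t using TensorProduct.induction_on with
  | zero => simp
  | tmul a b => simp
  | add s t hs ht => simp only [map_add, Pi.add_apply, Subalgebra.coe_add, hs, ht]

/-- The Hopf algebra structure. -/
@[reducible] noncomputable def hopfAlgebra (hH : Core H) : HopfAlgebra R ↥H :=
  letI := hH.bialgebra
  { antipode := hH.antipodeMap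
    mul_antipode_rTensor_comul := by
      ext φ x
      simp only [LinearMap.coe_comp, Function.comp_apply]
      rw [comul_eq, mul'_rTensor_antipodeMap, ev₂_comulHom, counit_eq]
      simp [algebraMap_counitHom]
    mul_antipode_lTensor_comul := by
      ext φ x
      simp only [LinearMap.coe_comp, Function.comp_apply]
      rw [comul_eq, mul'_lTensor_antipodeMap, ev₂_comulHom, counit_eq]
      simp [algebraMap_counitHom] }

set_option synthInstance.maxHeartbeats 200000 in
theorem ev₂_comm (H : Subalgebra R (Γ → Ω)) (t : ↥H ⊗[R] ↥H) (x y : Γ) :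
    ev₂ H (TensorProduct.comm R ↥H ↥H t) (x, y) = ev₂ H t (y, x) := by
  induction t using TensorProduct.induction_on with
  | zero => simp
  | tmul a b => simp [mul_comm]
  | add s t hs ht => simp only [map_add, Pi.add_apply, hs, ht]

theorem isCocomm (hH : Core H) :
    letI := hH.hopfAlgebra
    Coalgebra.IsCocomm R ↥H := by
  letI := hH.hopfAlgebra
  refine ⟨?_⟩
  ext φ
  apply hH.inj₂
  funext ⟨x, y⟩
  simp only [LinearMap.coe_comp, LinearEquiv.coe_coe, Function.comp_apply]
  rw [ev₂_comm, comul_eq, ev₂_comulHom, ev₂_comulHom]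
  simp [add_comm]

end Core

end Fermat.Agent.S19lib.H
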