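import Fermat.Agent.S19lib.H.Core
import Fermat.Agent.S56lib.Hopf.Descent

/-!
# Project FF, block FF-H (3): Galois-equivariant functions

`Ω / K` Galois, `K = Frac R`, and `Γ` a set with an action of `Gal(Ω / K)`.  Equivariant functions
`Γ → Ω` which are linearly independent over `R` are linearly independent over `Ω`
(Galois descent).  Consequently the evaluation maps of an `R`-order of equivariant functions,
free of finite rank, are injective.
-/

open TensorProduct Module

namespace Fermat.Agent.S19lib.H

open Fermat.Agent.S56lib.Hopf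

variable {R K Ω : Type*} [CommRing R] [IsDomain R] [Field K] [Field Ω] [Algebra R K] [Algebra K Ω]
  [Algebra R Ω] [IsScalarTower R K Ω] [IsFractionRing R K] [IsGalois K Ω]
  {Γ : Type*} [MulAction (Ω ≃ₐ[K] Ω) Γ]

/-- Galois-equivariant functions on a Galois set. -/
def IsEquivariant (K : Type*) {Ω Γ : Type*} [Field K] [Field Ω] [Algebra K Ω]
    [MulAction (Ω ≃ₐ[K] Ω) Γ] (φ : Γ → Ω) : Prop :=
  ∀ (σ : Ω ≃ₐ[K] Ω) (x : Γ), φ (σ • x) = σ (φ x)

omit [IsDomain R] [IsFractionRing R K] [IsGalois K Ω] in
theorem algebraMap_injective_of_isFractionRing [IsFractionRing R K] :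
    Function.Injective (algebraMap R Ω) := by
  rw [IsScalarTower.algebraMap_eq R K Ω]
  exact (algebraMap K Ω).injective.comp (IsFractionRing.injective R K)

/-- **Galois descent for relations**: equivariant functions which are `R`-linearly independent are
`Ω`-linearly independent. -/
theorem linearIndependent_of_equivariant {ι : Type*} [Fintype ι] (b : ι → Γ → Ω)
    (hb : ∀ i, IsEquivariant K (b i)) (hli : LinearIndependent R b) :
    LinearIndependent Ω b := by
  classical
  let N : Submodule Ω (ι → Ω) := LinearMap.ker (Fintype.linearCombination Ω b)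
  have hmem : ∀ t : ι → Ω, t ∈ N ↔ ∀ x, ∑ i, t i * b i x = 0 := by
    intro t
    simp only [N, LinearMap.mem_ker, Fintype.linearCombination_apply]
    constructor
    · intro h x
      have := congrFun h x
      simpa [Finset.sum_apply] using this
    · intro h
      funext x
      simpa [Finset.sum_apply] using h x
  have hN : ∀ σ : Ω ≃ₐ[K] Ω, ∀ t ∈ N, coordAct σ t ∈ N := by
    intro σ t ht
    rw [hmem] at ht ⊢
    intro x
    have h1 := ht (σ⁻¹ • x)
    have h2 := congrArg σ h1
    rw [map_sum, map_zero] at h2
    rw [← h2]
    refine Finset.sum_congr rfl fun i _ => ?_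
    rw [map_mul, ← hb i σ (σ⁻¹ • x), smul_inv_smul, coordAct_apply]
  rw [Fintype.linearIndependent_iff]
  intro g hg
  have hgN : g ∈ N := by
    simp only [N, LinearMap.mem_ker, Fintype.linearCombination_apply]
    exact hg
  have hspan := mem_span_intVec_of_stable (W := R) (K := K) N hN g hgN
  have hzero : {s : ι → Ω | s ∈ N ∧ ∃ c : ι → R, s = fun i => algebraMap R Ω (c i)} ⊆ {0} := by
    rintro s ⟨hsN, c, rfl⟩
    rw [hmem] at hsN
    have hc : ∑ i, c i • b i = 0 := by
      funext x
      have := hsN x
      simpa [Finset.sum_apply, Algebra.smul_def] using this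
    have hc0 := Fintype.linearIndependent_iff.mp hli c hc
    simp only [Set.mem_singleton_iff]
    funext i
    simp [hc0 i]
  have h0 : g ∈ Submodule.span Ω ({0} : Set (ι → Ω)) := Submodule.span_mono hzero hspan
  rw [Submodule.span_zero_singleton, Submodule.mem_bot] at h0
  intro i
  rw [h0]
  rfl

variable (H : Subalgebra R (Γ → Ω))

/-- An `R`-basis of an order of equivariant functions is `Ω`-linearly independent. -/
theorem basis_indep {ι : Type*} [Fintype ι] (b : Basis ι R ↥H)
    (hH : ∀ φ ∈ H, IsEquivariant K φ) :
    LinearIndependent Ω (fun i => H.val (b i)) := by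
  apply linearIndependent_of_equivariant (R := R) (K := K)
  · intro i
    exact hH _ (b i).2
  · have := b.linearIndependent.map' H.val.toLinearMap
      (LinearMap.ker_eq_bot.mpr Subtype.val_injective)
    exact this

end Fermat.Agent.S19lib.H
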