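import Fermat.Agent.S19lib.H.Main

/-!
# Project FF, block FF-H (6): integrality of the values of equivariant functions

`Ω / K` Galois, `K = Frac R`, `V` a subring of `Ω` with `V ∩ K = R`, `Γ` a finite Galois set.
The values of an equivariant `V`-valued function `φ : Γ → Ω` are integral over `R`: they are roots
of `∏_y (X - φ y)`, whose coefficients are Galois-invariant elements of `V`.
-/

open Polynomial

namespace Fermat.Agent.S19lib.H

set_option linter.unusedSectionVars false

variable {R K Ω : Type*} [CommRing R] [IsDomain R] [Field K] [Field Ω] [Algebra R K] [Algebra K Ω]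
  [Algebra R Ω] [IsScalarTower R K Ω] [IsGalois K Ω]
  {Γ : Type*} [MulAction (Ω ≃ₐ[K] Ω) Γ] [Fintype Γ]

/-- The polynomial `∏_y (X - φ y)`. -/
noncomputable def valuePoly (φ : Γ → Ω) : Polynomial Ω := ∏ y : Γ, (X - C (φ y))

omit [IsGalois K Ω] in
theorem valuePoly_monic (φ : Γ → Ω) : (valuePoly φ).Monic :=
  monic_prod_of_monic _ _ fun y _ => monic_X_sub_C (φ y)

omit [IsGalois K Ω] in
theorem valuePoly_eval (φ : Γ → Ω) (x : Γ) : (valuePoly φ).eval (φ x) = 0 := by
  unfold valuePoly
  rw [eval_prod]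
  exact Finset.prod_eq_zero (Finset.mem_univ x) (by simp)

omit [IsGalois K Ω] in
theorem valuePoly_map (φ : Γ → Ω) (hφ : IsEquivariant K φ) (σ : Ω ≃ₐ[K] Ω) :
    (valuePoly φ).map (σ : Ω →+* Ω) = valuePoly φ := by
  unfold valuePoly
  rw [Polynomial.map_prod]
  have h1 : ∀ y : Γ, (X - C (φ y)).map (σ : Ω →+* Ω) = X - C (φ (σ • y)) := by
    intro y
    rw [Polynomial.map_sub, map_X, map_C, hφ σ y]
    rfl
  simp_rw [h1]
  exact Equiv.prod_comp (MulAction.toPerm σ) (fun y => X - C (φ y))

omit [IsGalois K Ω] in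
theorem valuePoly_coeff_mem (V : Subring Ω) (φ : Γ → Ω) (hV : ∀ x, φ x ∈ V) (n : ℕ) :
    (valuePoly φ).coeff n ∈ V := by
  have h : valuePoly φ = (∏ y : Γ, (X - C (⟨φ y, hV y⟩ : V))).map V.subtype := by
    unfold valuePoly
    rw [Polynomial.map_prod]
    refine Finset.prod_congr rfl fun y _ => ?_
    rw [Polynomial.map_sub, map_X, map_C]
    rfl
  rw [h, coeff_map]
  exact Subtype.property _

/-- The values of an equivariant `V`-valued function are integral over `R`. -/
theorem isIntegral_value (V : Subring Ω)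
    (hVK : ∀ k : K, algebraMap K Ω k ∈ V → k ∈ Set.range (algebraMap R K))
    (φ : Γ → Ω) (hφ : IsEquivariant K φ) (hV : ∀ x, φ x ∈ V) (x : Γ) :
    IsIntegral R (φ x) := by
  have hlift : valuePoly φ ∈ Polynomial.lifts (algebraMap R Ω) := by
    rw [Polynomial.lifts_iff_coeff_lifts]
    intro n
    have hfix : ∀ σ : Ω ≃ₐ[K] Ω, σ ((valuePoly φ).coeff n) = (valuePoly φ).coeff n := by
      intro σ
      have := congrArg (fun p => p.coeff n) (valuePoly_map φ hφ σ)
      simpa [coeff_map] using this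
    obtain ⟨k, hk⟩ : (valuePoly φ).coeff n ∈ Set.range (algebraMap K Ω) :=
      (InfiniteGalois.mem_range_algebraMap_iff_fixed _).mpr hfix
    have hkV : algebraMap K Ω k ∈ V := by
      rw [hk]
      exact valuePoly_coeff_mem V φ hV n
    obtain ⟨r, hr⟩ := hVK k hkV
    exact ⟨r, by rw [IsScalarTower.algebraMap_apply R K Ω, hr, hk]⟩
  obtain ⟨q, hq, -, hqm⟩ := Polynomial.lifts_and_degree_eq_and_monic hlift (valuePoly_monic φ)
  refine ⟨q, hqm, ?_⟩
  rw [← Polynomial.eval_map, hq]
  exact valuePoly_eval φ x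

end Fermat.Agent.S19lib.H
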