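import Fermat.Agent.S19lib.H.Points

/-!
# Project FF, block FF-H (5): Hopf orders of equivariant functions — the main statement

`R` a principal ideal domain, `K = Frac R`, `Ω / K` Galois, `Γ` a finite additive group with an
action of `Gal(Ω / K)` fixing `0`.  Let `H` be an `R`-subalgebra of `Γ → Ω`, finitely generated as
an `R`-module, consisting of equivariant functions, separating the points of `Γ`, stable under
`φ ↦ φ ∘ neg`, and such that every translate `(x, y) ↦ φ (x + y)` is an `R`-combination of products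
`a(x) b(y)` with `a, b ∈ H`.  Then `H` is a finite flat cocommutative Hopf algebra over `R`, whose
`Ω`-points are `Γ`, additively and Galois-equivariantly.
-/

open TensorProduct Module WithConv

namespace Fermat.Agent.S19lib.H

set_option linter.unusedSectionVars false
set_option linter.style.haveILetI false

universe u v

variable {R K : Type*} {Ω : Type u} [CommRing R] [IsDomain R] [Field K] [Field Ω] [Algebra R K]
  [Algebra K Ω] [Algebra R Ω] [IsScalarTower R K Ω] [IsFractionRing R K] [IsGalois K Ω]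
  {Γ : Type v} [MulAction (Ω ≃ₐ[K] Ω) Γ]

/-- The `R`-span of the products `a(x) b(y)`, `a, b ∈ H` (the image of `H ⊗ H`). -/
def prodSpan (H : Subalgebra R (Γ → Ω)) : Submodule R (Γ × Γ → Ω) :=
  Submodule.span R {Ψ : Γ × Γ → Ω | ∃ a ∈ H, ∃ b ∈ H, Ψ = fun z => a z.1 * b z.2}

theorem prodSpan_le_range (H : Subalgebra R (Γ → Ω)) :
    prodSpan H ≤ Subalgebra.toSubmodule (ev₂ H).range := by
  refine Submodule.span_le.mpr ?_
  rintro Ψ ⟨a, ha, b, hb, rfl⟩
  refine ⟨(⟨a, ha⟩ : ↥H) ⊗ₜ[R] (⟨b, hb⟩ : ↥H), ?_⟩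
  funext z
  simp

theorem isTorsionFree_order (hinj : Function.Injective (algebraMap R Ω))
    (H : Subalgebra R (Γ → Ω)) : Module.IsTorsionFree R ↥H := by
  apply Module.IsTorsionFree.of_smul_eq_zero
  intro r φ h
  by_cases hr : r = 0
  · exact Or.inl hr
  · right
    apply Subtype.ext
    funext x
    have h1 := congrFun (congrArg Subtype.val h) x
    simp only [Algebra.smul_def, ZeroMemClass.coe_zero, Pi.zero_apply] at h1
    rcases mul_eq_zero.mp h1 with h2 | h2
    · exact absurd (hinj (h2.trans (map_zero _).symm)) hr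
    · exact h2

/-- The value at a Galois-fixed point of an equivariant function in a finite order lies in `R`. -/
theorem value_mem_range_of_fixed [IsIntegrallyClosed R] (H : Subalgebra R (Γ → Ω))
    [Module.Finite R ↥H] (hequiv : ∀ φ ∈ H, IsEquivariant K φ) (x : Γ)
    (hx : ∀ σ : Ω ≃ₐ[K] Ω, σ • x = x) (φ : Γ → Ω) (hφ : φ ∈ H) :
    φ x ∈ (Algebra.ofId R Ω).range := by
  have hfix : ∀ σ : Ω ≃ₐ[K] Ω, σ (φ x) = φ x := by
    intro σ
    rw [← hequiv φ hφ σ x, hx σ]
  obtain ⟨k, hk⟩ : φ x ∈ Set.range (algebraMap K Ω) :=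
    (InfiniteGalois.mem_range_algebraMap_iff_fixed (φ x)).mpr hfix
  have hint : IsIntegral R (⟨φ, hφ⟩ : ↥H) := IsIntegral.of_finite R _
  have hint2 : IsIntegral R (φ x) := by
    have := hint.map (evPt H x)
    simpa using this
  have hint3 : IsIntegral R k := by
    rw [← hk] at hint2
    exact (isIntegral_algebraMap_iff (algebraMap K Ω).injective).mp hint2
  obtain ⟨r, hr⟩ := IsIntegrallyClosed.isIntegral_iff.mp hint3
  refine ⟨r, ?_⟩
  rw [← hk, ← hr]
  exact (IsScalarTower.algebraMap_apply R K Ω r)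

variable [AddCommGroup Γ]

/-- The hypotheses of the main statement give a `Core`. -/
theorem core_of_order [IsIntegrallyClosed R] [Finite Γ] (H : Subalgebra R (Γ → Ω))
    [Module.Finite R ↥H] [Module.Free R ↥H]
    (hequiv : ∀ φ ∈ H, IsEquivariant K φ)
    (h0 : ∀ σ : Ω ≃ₐ[K] Ω, σ • (0 : Γ) = 0)
    (hcomul : ∀ φ ∈ H, (fun z : Γ × Γ => φ (z.1 + z.2)) ∈ prodSpan H)
    (hneg : ∀ φ ∈ H, (fun x => φ (-x)) ∈ H) : Core H := by
  have hinj : Function.Injective (algebraMap R Ω) :=
    algebraMap_injective_of_isFractionRing (K := K)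
  let b := Module.Free.chooseBasis R ↥H
  have hb : LinearIndependent Ω (fun i => H.val (b i)) := basis_indep (K := K) H b hequiv
  have h23 := evPair_injective₂₃ hinj H.val b hb
  refine
    { injR := hinj
      inj₂ := h23.1
      inj₃ := h23.2
      comul_mem := fun φ hφ => prodSpan_le_range H (hcomul φ hφ)
      counit_mem := fun φ hφ => value_mem_range_of_fixed H hequiv 0 h0 φ hφ
      neg_mem := hneg }

/-- **FF-H, main statement.** -/
theorem exists_hopfAlgebra_of_order [IsPrincipalIdealRing R] [Finite Γ]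
    (H : Subalgebra R (Γ → Ω)) (hfg : (Subalgebra.toSubmodule H).FG)
    (hequiv : ∀ φ ∈ H, IsEquivariant K φ)
    (hsep : ∀ x y : Γ, x ≠ y → ∃ φ ∈ H, φ x ≠ φ y)
    (h0 : ∀ σ : Ω ≃ₐ[K] Ω, σ • (0 : Γ) = 0)
    (hcomul : ∀ φ ∈ H, (fun z : Γ × Γ => φ (z.1 + z.2)) ∈ prodSpan H)
    (hneg : ∀ φ ∈ H, (fun x => φ (-x)) ∈ H) :
    ∃ (H' : Type (max u v)) (_ : CommRing H') (_ : HopfAlgebra R H'),
      Module.Finite R H' ∧ Module.Flat R H' ∧ Coalgebra.IsCocomm R H' ∧
      ∃ e : WithConv (H' →ₐ[R] Ω) ≃ Γ,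
        (∀ f g : WithConv (H' →ₐ[R] Ω), e (f * g) = e f + e g) ∧
        ∀ (σ : Ω ≃ₐ[K] Ω) (f g : WithConv (H' →ₐ[R] Ω)),
          (∀ h : H', g h = σ (f h)) → e g = σ • e f := by
  haveI hfin : Module.Finite R ↥H := Module.Finite.iff_fg.mpr hfg
  haveI := isTorsionFree_order (algebraMap_injective_of_isFractionRing (K := K)) H
  haveI hfree : Module.Free R ↥H := Module.free_of_finite_type_torsion_free'
  have hcore : Core H := core_of_order (K := K) H hequiv h0 hcomul hneg
  obtain ⟨hco, e, he1, he2⟩ := exists_hopf_points (K := K) hcore hequiv hsep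
  exact ⟨↥H, inferInstance, hcore.hopfAlgebra, hfin, inferInstance, hco, e, he1, he2⟩

end Fermat.Agent.S19lib.H
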