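import Fermat.Agent.S19lib.H.Indep
import Fermat.Agent.S56lib.Hopf.GalPts

/-!
# Project FF, block FF-H (4): the geometric points of an order of equivariant functions

For a finite Galois set `Γ` and an `R`-order `H` of equivariant functions `Γ → Ω`, free of finite
rank and separating the points of `Γ`, the evaluation `Γ → (H →ₐ[R] Ω)` is bijective.  If `H` is a
Hopf order (`Core H`), this bijection turns the convolution product into the addition of `Γ`, and it
is Galois equivariant.
-/

open TensorProduct Module WithConv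

namespace Fermat.Agent.S19lib.H

open Fermat.Agent.S56lib.Hopf

set_option linter.unusedSectionVars false
set_option linter.style.haveILetI false

variable {R K Ω : Type*} [CommRing R] [IsDomain R] [Field K] [Field Ω] [Algebra R K] [Algebra K Ω]
  [Algebra R Ω] [IsScalarTower R K Ω] [IsFractionRing R K] [IsGalois K Ω]
  {Γ : Type*} [MulAction (Ω ≃ₐ[K] Ω) Γ]

/-- Evaluation at a point of `Γ`, as a point of the order `H`. -/
def evPt (H : Subalgebra R (Γ → Ω)) (x : Γ) : ↥H →ₐ[R] Ω :=
  (Pi.evalAlgHom R (fun _ : Γ => Ω) x).comp H.val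

@[simp] theorem evPt_apply (H : Subalgebra R (Γ → Ω)) (x : Γ) (φ : ↥H) :
    evPt H x φ = (φ : Γ → Ω) x := rfl

variable {H : Subalgebra R (Γ → Ω)}

theorem evPt_injective (hsep : ∀ x y : Γ, x ≠ y → ∃ φ ∈ H, φ x ≠ φ y) :
    Function.Injective (evPt H) := by
  intro x y hxy
  by_contra hne
  obtain ⟨φ, hφ, h⟩ := hsep x y hne
  exact h (DFunLike.congr_fun hxy ⟨φ, hφ⟩)

/-- The evaluation `Γ → (H →ₐ[R] Ω)` is bijective. -/
theorem evPt_bijective [Finite Γ] [Module.Finite R ↥H] [Module.Free R ↥H]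
    (hequiv : ∀ φ ∈ H, IsEquivariant K φ)
    (hsep : ∀ x y : Γ, x ≠ y → ∃ φ ∈ H, φ x ≠ φ y) :
    Function.Bijective (evPt H) := by
  classical
  cases nonempty_fintype Γ
  let b := Module.Free.chooseBasis R ↥H
  have hb : LinearIndependent Ω (fun i => H.val (b i)) := basis_indep (K := K) H b hequiv
  have h1 : Fintype.card (Module.Free.ChooseBasisIndex R ↥H) ≤ Fintype.card Γ := by
    have := hb.fintype_card_le_finrank
    rwa [Module.finrank_fintype_fun_eq_card] at this
  have hrows := linearIndependent_rows (W := R) (Ω := Ω) b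
  haveI : Finite (↥H →ₐ[R] Ω) := finite_points (W := R) (Ω := Ω) b
  cases nonempty_fintype (↥H →ₐ[R] Ω)
  have h2 : Fintype.card (↥H →ₐ[R] Ω) ≤ Fintype.card (Module.Free.ChooseBasisIndex R ↥H) := by
    have := hrows.fintype_card_le_finrank
    rwa [Module.finrank_fintype_fun_eq_card] at this
  refine (evPt_injective hsep).bijective_of_nat_card_le ?_
  rw [Nat.card_eq_fintype_card, Nat.card_eq_fintype_card]
  exact h2.trans h1

theorem lift_evPt (H : Subalgebra R (Γ → Ω)) (x y : Γ) (t : ↥H ⊗[R] ↥H) :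
    Algebra.TensorProduct.lift (evPt H x) (evPt H y) (fun _ _ => Commute.all _ _) t =
      ev₂ H t (x, y) := by
  induction t using TensorProduct.induction_on with
  | zero => simp
  | tmul a b => simp
  | add s t hs ht => simp only [map_add, Pi.add_apply, hs, ht]

variable [AddCommGroup Γ]

/-- Convolution of evaluation points is evaluation at the sum. -/
theorem evPt_conv (hH : Core H) (x y : Γ) :
    letI := hH.hopfAlgebra
    (toConv (evPt H x) * toConv (evPt H y) : WithConv (↥H →ₐ[R] Ω)) = toConv (evPt H (x + y)) := by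
  letI := hH.hopfAlgebra
  apply WithConv.ext
  apply AlgHom.ext
  intro φ
  have h := AlgHom.convMul_apply (toConv (evPt H x)) (toConv (evPt H y)) φ
  change (toConv (evPt H x) * toConv (evPt H y)) φ = _
  rw [h]
  change Algebra.TensorProduct.lift (evPt H x) (evPt H y) _ (hH.comulHom φ) = _
  rw [lift_evPt, Core.ev₂_comulHom]
  rfl

/-- **FF-H, abstract form.**  A Hopf order of equivariant functions on a finite Galois module `Γ`
is a finite cocommutative Hopf algebra whose `Ω`-points are `Γ`, additively and equivariantly. -/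
theorem exists_hopf_points [Finite Γ] [Module.Finite R ↥H] [Module.Free R ↥H] (hH : Core H)
    (hequiv : ∀ φ ∈ H, IsEquivariant K φ)
    (hsep : ∀ x y : Γ, x ≠ y → ∃ φ ∈ H, φ x ≠ φ y) :
    letI := hH.hopfAlgebra
    Coalgebra.IsCocomm R ↥H ∧
    ∃ e : WithConv (↥H →ₐ[R] Ω) ≃ Γ,
      (∀ f g : WithConv (↥H →ₐ[R] Ω), e (f * g) = e f + e g) ∧
      ∀ (σ : Ω ≃ₐ[K] Ω) (f g : WithConv (↥H →ₐ[R] Ω)),
        (∀ h : ↥H, g h = σ (f h)) → e g = σ • e f := by
  letI := hH.hopfAlgebra
  refine ⟨hH.isCocomm, ?_⟩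
  have hbij := evPt_bijective (K := K) hequiv hsep
  let E : Γ ≃ (↥H →ₐ[R] Ω) := Equiv.ofBijective (evPt H) hbij
  let e : WithConv (↥H →ₐ[R] Ω) ≃ Γ := (WithConv.equiv _).trans E.symm
  have he : ∀ x : Γ, e (toConv (evPt H x)) = x := fun x => E.symm_apply_apply x
  have hsurj : ∀ f : WithConv (↥H →ₐ[R] Ω), ∃ x : Γ, f = toConv (evPt H x) := by
    intro f
    obtain ⟨x, hx⟩ := hbij.2 f.ofConv
    exact ⟨x, by rw [hx]⟩
  refine ⟨e, ?_, ?_⟩
  · intro f g
    obtain ⟨x, rfl⟩ := hsurj f
    obtain ⟨y, rfl⟩ := hsurj g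
    rw [evPt_conv hH, he, he, he]
  · intro σ f g hfg
    obtain ⟨x, rfl⟩ := hsurj f
    have hg : g = toConv (evPt H (σ • x)) := by
      apply WithConv.ext
      apply AlgHom.ext
      intro φ
      have := hfg φ
      change g.ofConv φ = σ ((φ : Γ → Ω) x) at this
      rw [this]
      exact (hequiv _ φ.2 σ x).symm
    rw [hg, he, he]

end Fermat.Agent.S19lib.H
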